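import Fermat.Agent.R59.Defs
import Fermat.Agent.TWGal.Augmentation
import Fermat.Agent.DefCond.Ordinary
import Fermat.Agent.Tangent.Conditions

/-!
# Forgetting ramification at a set of primes

`inertiaIdeal M Q` is generated by the entries of `M σ - 1`, `σ` in an inertia group over `Q`.
For `cond k` it is the kernel of `R_S → R_{S₀}`, `Q = S \ S₀`.
-/

set_option autoImplicit false

noncomputable section

open IsLocalRing

namespace Fermat.Agent.R59

open Deform DefCond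

section Cond

variable {𝒪 : Type} [CommRing 𝒪] {p : ℕ} {A : Type} [CommRing A] [IsLocalRing A] [Algebra 𝒪 A]
  {k : Kind} {S Smin : Finset ℕ} {ρ : GaloisRepAdic A}

theorem cond_detIsCyclotomic (h : cond k 𝒪 p S Smin ρ) : ρ.DetIsCyclotomic p := by
  cases k <;> exact h.1.1

theorem cond_isUnramifiedAt (h : cond k 𝒪 p S Smin ρ) {q : ℕ} (hq : q.Prime) (hqS : q ∉ S) :
    ρ.IsUnramifiedAt q := by
  cases k <;> exact h.1.2.2 q hq hqS

/-- Shrinking the ramification set. -/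
theorem cond_iff_of_subset {S₀ : Finset ℕ} (hS : S₀ ⊆ S) :
    cond k 𝒪 p S₀ Smin ρ ↔
      cond k 𝒪 p S Smin ρ ∧ ∀ q ∈ S \ S₀, q.Prime → ρ.IsUnramifiedAt q := by
  have key : (∀ q : ℕ, q.Prime → q ∉ S₀ → ρ.IsUnramifiedAt q) ↔
      (∀ q : ℕ, q.Prime → q ∉ S → ρ.IsUnramifiedAt q) ∧
        ∀ q ∈ S \ S₀, q.Prime → ρ.IsUnramifiedAt q :=
    ⟨fun h => ⟨fun q hq hqS => h q hq fun h' => hqS (hS h'),
      fun q hq hqp => h q hqp (Finset.mem_sdiff.mp hq).2⟩,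
    fun h q hq hqS => by
      by_cases hmem : q ∈ S
      · exact h.2 q (Finset.mem_sdiff.mpr ⟨hmem, hqS⟩) hq
      · exact h.1 q hq hmem⟩
  cases k <;>
    simp only [cond, baseCond, GaloisRep.flatCondition, GaloisRep.strictOrdinaryCondition,
      GaloisRep.ordinaryCondition, key] <;> tauto

/-- The conditions pass to quotients. -/
theorem cond_baseChangeAlong [Fact p.Prime] (hp2 : p ≠ 2) {B : Type} [CommRing B] [IsLocalRing B]
    [Algebra 𝒪 B] (φ : A →+* B) (hφ : IsLocalHom φ) (hsurj : Function.Surjective φ)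
    (h : cond k 𝒪 p S Smin ρ) : cond k 𝒪 p S Smin (ρ.baseChangeAlong φ hφ) := by
  refine ⟨?_, fun q hq hqP hqp => Tangent.isUnipotentOnInertiaAt_baseChangeAlong _ hφ
    (h.2 q hq hqP hqp)⟩
  cases k with
  | flat =>
    obtain ⟨h1, h2, h3⟩ := h.1
    exact ⟨Tangent.detIsCyclotomic_baseChangeAlong _ hφ h1,
      Tangent.isFlatAt_baseChangeAlong _ hφ hsurj h2,
      fun q hq hqS => Tangent.isUnramifiedAt_baseChangeAlong _ hφ (h3 q hq hqS)⟩
  | strict =>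
    obtain ⟨h1, h2, h3⟩ := h.1
    exact ⟨Tangent.detIsCyclotomic_baseChangeAlong _ hφ h1,
      Tangent.isStrictOrdinaryAt_baseChangeAlong _ hφ h2,
      fun q hq hqS => Tangent.isUnramifiedAt_baseChangeAlong _ hφ (h3 q hq hqS)⟩
  | ord =>
    obtain ⟨h1, h2, h3⟩ := h.1
    obtain ⟨b⟩ := finBasisV ρ
    have hm := (det_and_isOrdinaryAt_iff hp2 ρ b).1 ⟨h1, h2⟩
    have h4 : (ρ.baseChangeAlong φ hφ).DetIsCyclotomic p ∧
        (ρ.baseChangeAlong φ hφ).IsOrdinaryAt p := by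
      rw [det_and_isOrdinaryAt_iff hp2 _ (bcBasis φ hφ b), matOf_bcBasis]
      exact ⟨⟨natCast_mem_maximalIdeal_map hφ hm.1.1, (hm.1.2.map φ).congr
          (fun σ _ => φ.map_det _) fun σ _ => by simp⟩,
        fun P hP σ₀ hσ₀ ha => (hm.2 P hP σ₀ hσ₀ ha).map φ⟩
    exact ⟨h4.1, h4.2,
      fun q hq hqS => Tangent.isUnramifiedAt_baseChangeAlong _ hφ (h3 q hq hqS)⟩

end Cond

namespace CotGrowth

section Ideal

variable {A : Type} [CommRing A]

/-- The ideal generated by the entries of `M σ - 1`, for `σ` in inertia over a prime of `Q`. -/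
def inertiaIdeal (M : MatRep A) (Q : Finset ℕ) : Ideal A :=
  Ideal.span {x | ∃ q ∈ Q, ∃ P : ValuationSubring (AlgebraicClosure ℚ), P.LiesOverPrime q ∧
    ∃ σ ∈ P.inertiaSubgroupIn ℚ, ∃ i j, x = (M σ - 1) i j}

theorem mem_inertiaIdeal {M : MatRep A} {Q : Finset ℕ} {q : ℕ} (hq : q ∈ Q)
    {P : ValuationSubring (AlgebraicClosure ℚ)} (hP : P.LiesOverPrime q) {σ : GQ}
    (hσ : σ ∈ P.inertiaSubgroupIn ℚ) (i j : Fin 2) : (M σ - 1) i j ∈ inertiaIdeal M Q :=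
  Ideal.subset_span ⟨q, hq, P, hP, σ, hσ, i, j, rfl⟩

variable [IsLocalRing A] {B : Type} [CommRing B] [IsLocalRing B]

/-- A specialisation is unramified on `Q` exactly when it kills the inertia ideal. -/
theorem inertiaIdeal_le_ker_iff (ρ : GaloisRepAdic A) (b : Module.Basis (Fin 2) A ρ.V)
    (Q : Finset ℕ) (f : A →+* B) (hf : IsLocalHom f) :
    inertiaIdeal (matOf ρ b) Q ≤ RingHom.ker f ↔
      ∀ q ∈ Q, (ρ.baseChangeAlong f hf).IsUnramifiedAt q := by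
  have key : ∀ σ : GQ, (ρ.baseChangeAlong f hf).ρ σ = 1 ↔
      ∀ i j, f ((matOf ρ b σ - 1) i j) = 0 := fun σ => by
    rw [← map_eq_one_iff (LinearMap.toMatrixAlgEquiv (bcBasis f hf b))
      (LinearMap.toMatrixAlgEquiv (bcBasis f hf b)).injective,
      show LinearMap.toMatrixAlgEquiv (bcBasis f hf b) ((ρ.baseChangeAlong f hf).ρ σ) =
        matOf (ρ.baseChangeAlong f hf) (bcBasis f hf b) σ from rfl,
      matOf_bcBasis, ← sub_eq_zero, ← Matrix.ext_iff]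
    refine forall₂_congr fun i j => ?_
    rw [Matrix.sub_apply, Matrix.sub_apply, mapRep_apply, map_sub, Matrix.zero_apply]
    rcases eq_or_ne i j with rfl | h
    · rw [Matrix.one_apply_eq, Matrix.one_apply_eq, map_one]
    · rw [Matrix.one_apply_ne h, Matrix.one_apply_ne h, map_zero]
  rw [inertiaIdeal, Ideal.span_le]
  constructor
  · intro h q hq P hP σ hσ
    exact (key σ).mpr fun i j => h ⟨q, hq, P, hP, σ, hσ, i, j, rfl⟩
  · rintro h _ ⟨q, hq, P, hP, σ, hσ, i, j, rfl⟩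
    exact (key σ).mp (h q hq P hP σ hσ) i j

end Ideal

section Kernel

variable {𝒪 : Type} [CommRing 𝒪] [IsDomain 𝒪] [IsDiscreteValuationRing 𝒪]
  [IsAdicComplete (maximalIdeal 𝒪) 𝒪] {ρbar : ResidualGaloisRep (ResidueField 𝒪)}
  {p : ℕ} [Fact p.Prime] {k : Kind} {S S₀ Smin : Finset ℕ}

/-- **The kernel of `R_S → R_{S₀}`.** -/
theorem exists_restrict (hp2 : p ≠ 2)
    (DS : GaloisRep.DeformationRingData 𝒪 ρbar (cond k 𝒪 p S Smin))
    (D₀ : GaloisRep.DeformationRingData 𝒪 ρbar (cond k 𝒪 p S₀ Smin)) (hS : S₀ ⊆ S)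
    (hprime : ∀ q ∈ S \ S₀, q.Prime) (b : Module.Basis (Fin 2) DS.R DS.ρ.V) :
    ∃ π : DS.R →ₐ[𝒪] D₀.R, Function.Surjective π ∧
      RingHom.ker (π : DS.R →+* D₀.R) = inertiaIdeal (matOf DS.ρ b) (S \ S₀) ∧
      ∃ hπ : IsLocalHom (π : DS.R →+* D₀.R),
        (DS.ρ.baseChangeAlong (π : DS.R →+* D₀.R) hπ).IsEquiv D₀.ρ := by
  have hkill : ∀ (f : DS.R →ₐ[𝒪] D₀.R) (hf : IsLocalHom (f : DS.R →+* D₀.R)),
      (DS.ρ.baseChangeAlong (f : DS.R →+* D₀.R) hf).IsEquiv D₀.ρ →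
        inertiaIdeal (matOf DS.ρ b) (S \ S₀) ≤ RingHom.ker (f : DS.R →+* D₀.R) :=
    fun f hf he => (inertiaIdeal_le_ker_iff DS.ρ b _ _ hf).mpr fun q hq =>
      Tangent.isUnramifiedAt_of_isEquiv (he.map (·.symm))
        (cond_isUnramifiedAt D₀.isOfType (hprime q hq) (Finset.mem_sdiff.mp hq).2)
  have hle : ∀ ⦃A : Type⦄ [CommRing A] [IsLocalRing A] [Algebra 𝒪 A] (ρ : GaloisRepAdic A),
      cond k 𝒪 p S₀ Smin ρ → cond k 𝒪 p S Smin ρ :=
    fun A _ _ _ ρ hρ => ((cond_iff_of_subset hS).mp hρ).1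
  obtain ⟨f, ⟨hf, hef⟩, -⟩ := DS.universal D₀.R D₀.residue_surjective D₀.ρ
    (hle _ D₀.isOfType) D₀.residual_isEquiv
  refine TWGal.exists_surjective_ker_eq DS D₀ _
    ((hkill f hf hef).trans fun x hx hu => by
      have h1 := hu.map (f : DS.R →+* D₀.R)
      rw [RingHom.mem_ker.mp hx] at h1
      exact not_isUnit_zero h1) hle hkill ?_
  intro _ hmk
  refine (cond_iff_of_subset hS).mpr
    ⟨cond_baseChangeAlong hp2 _ hmk Ideal.Quotient.mk_surjective DS.isOfType,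
      fun q hq _ => (inertiaIdeal_le_ker_iff DS.ρ b _ _ hmk).mp ?_ q hq⟩
  exact fun x hx => Ideal.Quotient.eq_zero_iff_mem.mpr hx

end Kernel

end CotGrowth

end Fermat.Agent.R59
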