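import Fermat.Agent.R59.CotGrowth.LinAlg
import Fermat.Agent.TWGal.Tame

/-!
# Inertia at a raised prime modulo a square zero ideal

If inertia at `q` is trivial modulo a square zero ideal `I` of `A` and has determinant `1`, the
entries of its image are spanned over `O` by three elements of `I` satisfying the relations
`conjMat F - q ^ 2`, where `F` is the matrix of Frobenius modulo `I`.
-/

set_option autoImplicit false

noncomputable section

namespace Fermat.Agent.R59.CotGrowth

open Fermat.Agent.Galois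

variable {O A : Type} [CommRing O] [CommRing A] [Algebra O A] {I : Ideal A}

theorem unit_zpow_val {n : Type*} [Fintype n] [DecidableEq n] (u : (Matrix n n A)ˣ)
    (hY : (u.val - 1) * (u.val - 1) = 0) (m : ℤ) :
    (u ^ m).val = 1 + (m : A) • (u.val - 1) := by
  have hpow : ∀ k : ℕ, (u ^ k).val = 1 + (k : A) • (u.val - 1) := fun k => by
    rw [Units.val_pow_eq_pow_val, ← one_add_pow_eq hY, add_sub_cancel]
  rcases m with k | k
  · simpa using hpow k
  · rw [zpow_negSucc, Units.inv_eq_of_mul_eq_one_right (u := u ^ (k + 1))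
      (a := 1 - ((k + 1 : ℕ) : A) • (u.val - 1))]
    · push_cast
      rw [neg_smul, sub_eq_add_neg]
    · rw [hpow, mul_sub, mul_one, add_mul, one_mul, smul_mul_smul_comm, hY, smul_zero, add_zero]
      abel

/-- Generators with relations for the entries of inertia at `q`. -/
theorem exists_inertia_relations {P : ValuationSubring Qbar} {q : ℕ} (hP : P.LiesOverPrime q)
    (hq : q.Prime) (hI : I * I = ⊥) (hqu : IsUnit (q : A))
    (r : P.decompositionSubgroup ℚ →* Matrix (Fin 2) (Fin 2) A)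
    (L : IntermediateField ℚ Qbar) [FiniteDimensional ℚ L]
    (hr : ∀ σ : P.decompositionSubgroup ℚ, (∀ x ∈ L, σ.1 x = x) → r σ = 1)
    (hinert : ∀ σ : P.decompositionSubgroup ℚ, σ.1 ∈ P.inertiaSubgroupIn ℚ →
      (∀ i j, (r σ - 1) i j ∈ I) ∧ (r σ).det = 1)
    (φ : P.decompositionSubgroup ℚ) (hφ : P.IsFrobeniusAt φ.1 q)
    {F : Matrix (Fin 2) (Fin 2) O} (hG : ∀ i j, (r φ - F.map (algebraMap O A)) i j ∈ I)
    (hF : F.det = (q : O)) :
    ∃ y : Fin 3 → A, (∀ i, y i ∈ I) ∧
      (∀ i, ∑ j, (conjMat F - (q : O) ^ 2 • (1 : Matrix (Fin 3) (Fin 3) O)) i j • y j = 0) ∧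
      ∀ σ : P.decompositionSubgroup ℚ, σ.1 ∈ P.inertiaSubgroupIn ℚ →
        ∀ i j, (r σ - 1) i j ∈ Submodule.span O (Set.range y) := by
  have hsq : ∀ σ : P.decompositionSubgroup ℚ, σ.1 ∈ P.inertiaSubgroupIn ℚ →
      (r σ - 1) * (r σ - 1) = 0 := fun σ hσ =>
    matrix_mul_eq_zero hI (hinert σ hσ).1 (hinert σ hσ).1
  obtain ⟨τ, hτ, hgen, hfrob⟩ := TWGal.exists_tame_generator hP hq r.toHomUnits L
    (fun σ hσ => Units.ext (hr σ hσ)) fun σ hσ k hk => by
      refine Units.ext ?_
      have h1 : r σ ^ q ^ k = 1 := by simpa using congrArg Units.val hk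
      have h2 := one_add_pow_eq (hsq σ hσ) (q ^ k)
      rw [add_sub_cancel, h1, eq_comm, add_eq_left, Nat.cast_pow] at h2
      exact sub_eq_zero.mp ((hqu.pow k).smul_eq_zero.mp h2)
  have hrel : r φ * r τ = r τ ^ q * r φ := by
    have h := (hfrob φ hφ).1
    rw [mul_inv_eq_iff_eq_mul] at h
    simpa using congrArg Units.val h
  obtain ⟨y, hy, hyrel, h00, h01, h10, h11⟩ :=
    exists_relations hI q (hinert τ hτ).1 hG (hinert τ hτ).2 hF hrel
  have hentry : ∀ i j, (r τ - 1) i j ∈ Submodule.span O (Set.range y) := fun i j => by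
    fin_cases i <;> fin_cases j
    · exact h00 ▸ Submodule.subset_span ⟨0, rfl⟩
    · exact h01 ▸ Submodule.subset_span ⟨1, rfl⟩
    · exact h10 ▸ Submodule.subset_span ⟨2, rfl⟩
    · exact h11 ▸ Submodule.neg_mem _ (Submodule.subset_span ⟨0, rfl⟩)
  refine ⟨y, hy, hyrel, fun σ hσ i j => ?_⟩
  obtain ⟨m, hm⟩ := Subgroup.mem_zpowers_iff.mp (hgen σ hσ)
  have hrσ : r σ = 1 + (m : A) • (r τ - 1) := by
    have h := unit_zpow_val (r.toHomUnits τ) (hsq τ hτ) m
    rw [hm] at h
    exact h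
  rw [hrσ, add_sub_cancel_left, Matrix.smul_apply, ← map_intCast (algebraMap O A), smul_eq_mul,
    ← Algebra.smul_def]
  exact Submodule.smul_mem _ _ (hentry i j)

end Fermat.Agent.R59.CotGrowth
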