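import Fermat.Agent.R59.CotGrowth.Restrict
import Fermat.Agent.R59.CotGrowth.Local
import Fermat.Agent.Galois.Cyclotomic
import Mathlib.RingTheory.Ideal.Cotangent

/-!
# Growth of the cotangent space when primes are raised

For augmented deformation rings `π₀ : R_{S₀} → O` and `π : R_S → R_{S₀} → O`,
`length (℘ / ℘²) ≤ length (℘₀ / ℘₀²) + ∑_{q ∈ S \ S₀} ord ((q - 1) ((q + 1)² - t_q²))`,
with `t_q` the trace of Frobenius at `q` under `π₀`.
-/

set_option autoImplicit false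

noncomputable section

open IsLocalRing

namespace Fermat.Agent.R59.CotGrowth

open Deform Galois

section Det

variable {R : Type} [CommRing R] [IsLocalRing R] [IsNoetherianRing R] {p q : ℕ}
  {P : ValuationSubring Qbar} {σ : GalQ}

theorem det_eq_natCast (ρ : GaloisRepAdic R) (hd : ρ.DetIsCyclotomic p)
    (b : Module.Basis (Fin 2) R ρ.V) (a : ℕ)
    (ha : ∀ (n : ℕ) (μ : Qbar), μ ^ p ^ n = 1 → σ μ = μ ^ a) :
    (matOf ρ b σ).det = (a : R) := by
  rw [matOf_apply, LinearMap.det_toMatrix]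
  refine DefCond.eq_of_forall_mk_eq fun n => Ideal.Quotient.eq.mpr ?_
  have h := hd.2 (n + 1) σ a (ha (n + 1))
  rw [Nat.cast_pow, ← Ideal.span_singleton_pow] at h
  exact Ideal.pow_right_mono ((Ideal.span_singleton_le_iff_mem _).mpr hd.1) (n + 1) h

theorem not_dvd_pow_of_ne (hp : p.Prime) (hq : q.Prime) (hne : q ≠ p) (n : ℕ) : ¬ q ∣ p ^ n :=
  fun h => hne ((Nat.prime_dvd_prime_iff_eq hq hp).mp (hq.dvd_of_dvd_pow h))

theorem det_inertia (hp : p.Prime) (hq : q.Prime) (hne : q ≠ p) (ρ : GaloisRepAdic R)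
    (hd : ρ.DetIsCyclotomic p) (b : Module.Basis (Fin 2) R ρ.V) (hP : P.LiesOverPrime q)
    (hσ : σ ∈ P.inertiaSubgroupIn ℚ) : (matOf ρ b σ).det = 1 := by
  rw [← Nat.cast_one (R := R)]
  exact det_eq_natCast ρ hd b 1 fun n μ hμ => by
    rw [pow_one, inertia_apply_rootOfUnity hP hq hσ (not_dvd_pow_of_ne hp hq hne n) hμ]

theorem det_frobenius (hp : p.Prime) (hq : q.Prime) (hne : q ≠ p) (ρ : GaloisRepAdic R)
    (hd : ρ.DetIsCyclotomic p) (b : Module.Basis (Fin 2) R ρ.V) (hP : P.LiesOverPrime q)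
    (hσ : P.IsFrobeniusAt σ q) : (matOf ρ b σ).det = (q : R) :=
  det_eq_natCast ρ hd b q fun n _ hμ =>
    isFrobeniusAt_apply_rootOfUnity hP hq hσ (not_dvd_pow_of_ne hp hq hne n) hμ

end Det

section Units

variable {O : Type} [CommRing O] [IsLocalRing O] {R : Type} [CommRing R] [IsLocalRing R]
  [Algebra O R] {p : ℕ}

theorem isUnit_natCast_of_ne (hp : p.Prime) (hpR : (p : R) ∈ maximalIdeal R) {q : ℕ}
    (hq : q.Prime) (hne : q ≠ p) : IsUnit (q : O) := by
  by_contra hqO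
  have hpO : ¬ IsUnit (p : O) := fun h => hpR (map_natCast (algebraMap O R) p ▸ h.map _)
  obtain ⟨a, b, hab⟩ := Nat.isCoprime_iff_coprime.mpr ((Nat.coprime_primes hp hq).mpr hne.symm)
  have h1 : (a : O) * (p : O) + (b : O) * (q : O) = 1 := by exact_mod_cast congrArg (Int.cast : ℤ → O) hab
  refine (maximalIdeal.isMaximal O).ne_top ((Ideal.eq_top_iff_one _).mpr ?_)
  rw [← h1]
  exact Ideal.add_mem _ (Ideal.mul_mem_left _ _ hpO) (Ideal.mul_mem_left _ _ hqO)

end Units

section Image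

variable {O : Type} [CommRing O] [IsDomain O] [IsDiscreteValuationRing O] {R : Type} [CommRing R]
  [IsLocalRing R] [IsNoetherianRing R] [Algebra O R]

omit [IsDomain O] [IsDiscreteValuationRing O] in
/-- The bound `ord ((q - 1) ((q + 1)² - t²))`. -/
theorem ord_det_relations {q : ℕ} (hqu : IsUnit (q : O)) {F : Matrix (Fin 2) (Fin 2) O}
    (hF : F.det = (q : O)) :
    Ring.ord O (conjMat F - (q : O) ^ 2 • (1 : Matrix (Fin 3) (Fin 3) O)).det =
      Ring.ord O (((q : O) - 1) * (((q : O) + 1) ^ 2 - F.trace ^ 2)) := by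
  have h := det_conjMat_sub F
  rw [hF] at h
  rw [h]
  unfold Ring.ord
  rw [show (q : O) ^ 3 * (1 - q) * (((q : O) + 1) ^ 2 - F.trace ^ 2) =
      (((q : O) - 1) * (((q : O) + 1) ^ 2 - F.trace ^ 2)) * -((q : O) ^ 3) by ring,
    Ideal.span_singleton_mul_right_unit (hqu.pow 3).neg]

/-- A bound on the images in every `R / (𝔞 + 𝔪 ^ (n + 1))` bounds the image in `R / 𝔞`. -/
theorem length_image_le_of_forall (𝔞 K : Ideal R) {B : ℕ∞}
    (h : ∀ n : ℕ, Module.length O ((K.restrictScalars O).map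
      (Ideal.Quotient.mkₐ O (𝔞 ⊔ maximalIdeal R ^ (n + 1))).toLinearMap) ≤ B) :
    Module.length O ((K.restrictScalars O).map (Ideal.Quotient.mkₐ O 𝔞).toLinearMap) ≤ B := by
  set N := (K.restrictScalars O).map (Ideal.Quotient.mkₐ O 𝔞).toLinearMap with hN
  let g : ∀ n : ℕ, N →ₗ[O] R ⧸ 𝔞 ⊔ maximalIdeal R ^ (n + 1) := fun n =>
    (Ideal.Quotient.factorₐ O
      (le_sup_left : 𝔞 ≤ 𝔞 ⊔ maximalIdeal R ^ (n + 1))).toLinearMap.comp N.subtype
  refine length_le_of_forall_quotient (fun n => LinearMap.ker (g n)) ?_ ?_ fun n => ?_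
  · rintro m n hmn ⟨x, hx⟩ h
    obtain ⟨r, rfl⟩ := Ideal.Quotient.mk_surjective x
    rw [LinearMap.mem_ker] at h ⊢
    change Ideal.Quotient.mk (𝔞 ⊔ maximalIdeal R ^ (m + 1)) r = 0
    change Ideal.Quotient.mk (𝔞 ⊔ maximalIdeal R ^ (n + 1)) r = 0 at h
    rw [Ideal.Quotient.eq_zero_iff_mem] at h ⊢
    exact (sup_le (le_sup_left : 𝔞 ≤ 𝔞 ⊔ maximalIdeal R ^ (m + 1))
      ((Ideal.pow_le_pow_right (by omega)).trans le_sup_right)) h
  · rw [eq_bot_iff]
    rintro ⟨x, hx⟩ h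
    obtain ⟨r, rfl⟩ := Ideal.Quotient.mk_surjective x
    refine Subtype.ext (Ideal.Quotient.eq_zero_iff_mem.mpr
      (DefCond.mem_of_forall_mk_mem _ _ fun n => ?_))
    have h1 : Ideal.Quotient.mk (𝔞 ⊔ maximalIdeal R ^ (n + 1)) r = 0 :=
      LinearMap.mem_ker.mp ((Submodule.mem_iInf _).mp h n)
    obtain ⟨u, hu, v, hv, rfl⟩ := Submodule.mem_sup.mp (Ideal.Quotient.eq_zero_iff_mem.mp h1)
    rw [map_add, Ideal.Quotient.eq_zero_iff_mem.mpr hv, add_zero]
    exact Ideal.mem_map_of_mem _ hu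
  rw [(g n).quotKerEquivRange.length_eq]
  refine le_trans (le_of_eq ?_) (h n)
  rw [LinearMap.range_comp, Submodule.range_subtype, hN, ← Submodule.map_comp]
  rfl

variable {p : ℕ} {Q : Finset ℕ}

/-- The image of the inertia ideal in `R / ℘²` is small. -/
theorem length_inertia_image_le (hp : p.Prime) (ρ : GaloisRepAdic R) (hd : ρ.DetIsCyclotomic p)
    (b : Module.Basis (Fin 2) R ρ.V) (hQ : ∀ q ∈ Q, q.Prime ∧ q ≠ p) (π : R →ₐ[O] O)
    (hK : inertiaIdeal (matOf ρ b) Q ≤ RingHom.ker π) (t : ℕ → O)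
    (hfrob : ∀ q ∈ Q, ∃ P : ValuationSubring Qbar, P.LiesOverPrime q ∧
      ∃ φ : GalQ, P.IsFrobeniusAt φ q ∧ π (LinearMap.trace R ρ.V (ρ.ρ φ)) = t q) :
    Module.length O (((inertiaIdeal (matOf ρ b) Q).restrictScalars O).map
        (Ideal.Quotient.mkₐ O (RingHom.ker π ^ 2)).toLinearMap) ≤
      ∑ q ∈ Q, Ring.ord O (((q : O) - 1) * (((q : O) + 1) ^ 2 - t q ^ 2)) := by
  classical
  set M := matOf ρ b with hM
  set 𝔭 := RingHom.ker π with h𝔭
  set K := inertiaIdeal M Q with hKdef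
  let J : ℕ → Ideal R := fun n => 𝔭 ^ 2 ⊔ maximalIdeal R ^ (n + 1)
  refine length_image_le_of_forall (𝔭 ^ 2) K fun n => ?_
  let mk : R →+* R ⧸ J n := Ideal.Quotient.mk (J n)
  set I : Ideal (R ⧸ J n) := 𝔭.map mk with hIdef
  have hI : I * I = ⊥ := by
    rw [hIdef, ← Ideal.map_mul, ← sq, Ideal.map_eq_bot_iff_le_ker, Ideal.mk_ker]
    exact le_sup_left
  obtain ⟨L, hL, hfix⟩ := isContRep_matOf ρ b (n + 1)
  choose! P hP φ hφ ht using hfrob
  have hexists : ∀ q : ℕ, ∃ y : Fin 3 → R ⧸ J n, q ∈ Q → (∀ i, y i ∈ I) ∧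
      Module.length O (Submodule.span O (Set.range y)) ≤
        Ring.ord O (((q : O) - 1) * (((q : O) + 1) ^ 2 - t q ^ 2)) ∧
      ∀ σ ∈ (P q).inertiaSubgroupIn ℚ, ∀ i j,
        mk ((M σ - 1) i j) ∈ Submodule.span O (Set.range y) := by
    intro q
    by_cases hq : q ∈ Q
    swap
    · exact ⟨0, fun h => absurd h hq⟩
    obtain ⟨hqp, hne⟩ := hQ q hq
    have hqu : IsUnit (q : O) := isUnit_natCast_of_ne (R := R) hp hd.1 hqp hne
    let F : Matrix (Fin 2) (Fin 2) O := (M (φ q)).map π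
    have hF : F.det = (q : O) := by
      rw [show F = π.toRingHom.mapMatrix (M (φ q)) from rfl, ← RingHom.map_det,
        hM, det_frobenius hp hqp hne ρ hd b (hP q hq) (hφ q hq), map_natCast]
    have htr : F.trace = t q := by
      rw [← ht q hq, LinearMap.trace_eq_matrix_trace R b, Matrix.trace_fin_two,
        Matrix.trace_fin_two, map_add]
      rfl
    let D := (P q).decompositionSubgroup ℚ
    let r : D →* Matrix (Fin 2) (Fin 2) (R ⧸ J n) :=
      mk.mapMatrix.toMonoidHom.comp (M.comp D.subtype)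
    have hsub : ∀ (σ : D) (i j : Fin 2), (r σ - 1) i j = mk ((M σ.1 - 1) i j) := fun σ i j => by
      change (mk.mapMatrix (M σ.1) - 1) i j = (mk.mapMatrix (M σ.1 - 1)) i j
      rw [map_sub, map_one]
    obtain ⟨y, hy, hrel, hin⟩ := exists_inertia_relations (O := O) (I := I) (hP q hq) hqp hI
      (map_natCast (algebraMap O (R ⧸ J n)) q ▸ hqu.map _) r L
      (fun σ hσ => by
        refine Matrix.ext fun i j => sub_eq_zero.mp ?_
        rw [← Matrix.sub_apply, hsub]
        exact Ideal.Quotient.eq_zero_iff_mem.mpr (Ideal.mem_sup_right (hfix σ.1 hσ i j)))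
      (fun σ hσ => ⟨fun i j => by
          rw [hsub]
          exact Ideal.mem_map_of_mem _ (hK (mem_inertiaIdeal hq (hP q hq) hσ i j)), by
        change (mk.mapMatrix (M σ.1)).det = 1
        rw [← RingHom.map_det, hM, det_inertia hp hqp hne ρ hd b (hP q hq) hσ, map_one]⟩)
      ⟨φ q, (hφ q hq).mem_decompositionSubgroup⟩ (hφ q hq) (F := F)
      (fun i j => by
        change mk (M (φ q) i j) - algebraMap O (R ⧸ J n) (π (M (φ q) i j)) ∈ I
        rw [IsScalarTower.algebraMap_apply O R (R ⧸ J n), Ideal.Quotient.algebraMap_eq, ← map_sub]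
        exact Ideal.mem_map_of_mem _ (by rw [h𝔭, RingHom.mem_ker, map_sub, π.commutes]; simp))
      hF
    refine ⟨y, fun _ => ⟨hy, ?_, fun σ hσ i j => ?_⟩⟩
    · rw [← htr, ← ord_det_relations hqu hF]
      exact length_span_le_ord_det _ y hrel
    · rw [← hsub ⟨σ, inertia_le_decomposition _ hσ⟩]
      exact hin _ hσ i j
  choose y hy using hexists
  let S : Submodule O (R ⧸ J n) := Q.sup fun q => Submodule.span O (Set.range (y q))
  have hSI : S ≤ I.restrictScalars O := Finset.sup_le fun q hq =>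
    Submodule.span_le.mpr (by rintro _ ⟨i, rfl⟩; exact (hy q hq).1 i)
  -- elements of `R` landing in `S` form an ideal
  let T : Ideal R :=
    { carrier := {x | mk x ∈ S}
      add_mem' := fun {a c} ha hc => by
        simp only [Set.mem_ofPred_eq, map_add] at *
        exact S.add_mem ha hc
      zero_mem' := by simp
      smul_mem' := fun a x hx => by
        simp only [Set.mem_ofPred_eq, smul_eq_mul, map_mul] at *
        have h0 : mk (a - algebraMap O R (π a)) * mk x = 0 :=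
          mul_eq_zero_of_sq_bot hI (Ideal.mem_map_of_mem _
            (by rw [h𝔭, RingHom.mem_ker, map_sub, π.commutes]; simp)) (hSI hx)
        rw [map_sub, sub_mul, sub_eq_zero] at h0
        rw [h0, show mk (algebraMap O R (π a)) = algebraMap O (R ⧸ J n) (π a) from rfl,
          ← Algebra.smul_def]
        exact S.smul_mem _ hx }
  have hKT : K ≤ T := by
    refine Ideal.span_le.mpr ?_
    rintro _ ⟨q, hq, P', hP', σ, hσ, i, j, rfl⟩
    obtain ⟨τ, hτ⟩ := exists_smul_eq (hP q hq) hP' (hQ q hq).1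
    subst hτ
    have hσ' := mem_inertia_smul_iff.mp hσ
    have hconj : M σ - 1 = M τ * (M (τ⁻¹ * σ * τ) - 1) * M τ⁻¹ := by
      rw [mul_sub, sub_mul, mul_one, ← map_mul, ← map_mul, ← map_mul, mul_inv_cancel, map_one]
      congr 2
      group
    have hgen : ∀ i j, (M (τ⁻¹ * σ * τ) - 1) i j ∈ T := fun i j =>
      Finset.le_sup (f := fun q => Submodule.span O (Set.range (y q))) hq
        ((hy q hq).2.2 _ hσ' i j)
    rw [SetLike.mem_coe, hconj, Matrix.mul_apply]
    refine Ideal.sum_mem _ fun l _ => Ideal.mul_mem_right _ _ ?_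
    rw [Matrix.mul_apply]
    exact Ideal.sum_mem _ fun l' _ => Ideal.mul_mem_left _ _ (hgen _ _)
  have hrange : (K.restrictScalars O).map (Ideal.Quotient.mkₐ O (J n)).toLinearMap ≤ S := by
    rintro _ ⟨r, hr, rfl⟩
    exact hKT hr
  refine (Module.length_le_of_injective (Submodule.inclusion hrange)
    (Submodule.inclusion_injective hrange)).trans ?_
  exact (length_finset_sup_le Q _).trans (Finset.sum_le_sum fun q hq => (hy q hq).2.1)

end Image

section Cotangent

variable {O : Type} [CommRing O] {R R₀ : Type} [CommRing R] [CommRing R₀] [Algebra O R]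
  [Algebra O R₀]

/-- The cotangent space of `R` is bounded by that of a quotient and the image of the kernel. -/
theorem length_cotangent_comp_le (r : R →ₐ[O] R₀) (hr : Function.Surjective r)
    (π₀ : R₀ →ₐ[O] O) {K : Ideal R} (hK : RingHom.ker (r : R →+* R₀) = K) :
    Module.length O (RingHom.ker (π₀.comp r)).Cotangent ≤
      Module.length O (RingHom.ker π₀).Cotangent +
        Module.length O ((K.restrictScalars O).map
          (Ideal.Quotient.mkₐ O (RingHom.ker (π₀.comp r) ^ 2)).toLinearMap) := by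
  set 𝔭 := RingHom.ker (π₀.comp r) with h𝔭
  let f : 𝔭.Cotangent →ₗ[O] (RingHom.ker π₀).Cotangent :=
    𝔭.mapCotangent (RingHom.ker π₀) r fun x hx => hx
  rw [Module.length_eq_add_of_exact (LinearMap.ker f).subtype f.rangeRestrict
    (Submodule.subtype_injective _) f.surjective_rangeRestrict
    (by rw [LinearMap.exact_iff, LinearMap.ker_rangeRestrict, Submodule.range_subtype]),
    add_comm]
  refine add_le_add (Module.length_le_of_injective _ (Submodule.subtype_injective _)) ?_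
  let e : LinearMap.ker f →ₗ[O] R ⧸ 𝔭 ^ 2 :=
    (𝔭.cotangentToQuotientSquare.restrictScalars O).comp (LinearMap.ker f).subtype
  have hmem : ∀ x, e x ∈ (K.restrictScalars O).map (Ideal.Quotient.mkₐ O (𝔭 ^ 2)).toLinearMap := by
    rintro ⟨z, hz⟩
    obtain ⟨x, rfl⟩ := 𝔭.toCotangent_surjective z
    rw [LinearMap.mem_ker, Ideal.mapCotangent_toCotangent, Ideal.toCotangent_eq_zero] at hz
    have hmap : RingHom.ker π₀ = 𝔭.map (r : R →+* R₀) := by
      refine le_antisymm (fun y hy => ?_) (Ideal.map_le_iff_le_comap.mpr fun y hy => hy)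
      obtain ⟨w, rfl⟩ := hr y
      exact Ideal.mem_map_of_mem _ (show w ∈ 𝔭 from hy)
    replace hz : r x.1 ∈ RingHom.ker π₀ ^ 2 := hz
    rw [hmap, ← Ideal.map_pow] at hz
    obtain ⟨w, hw, hwe⟩ := (Ideal.mem_map_iff_of_surjective (r : R →+* R₀) hr).mp hz
    refine ⟨x.1 - w, ?_, ?_⟩
    · rw [← hK, Submodule.coe_restrictScalars, SetLike.mem_coe, RingHom.mem_ker, map_sub]
      exact sub_eq_zero.mpr hwe.symm
    · change Ideal.Quotient.mk (𝔭 ^ 2) (x.1 - w) = Ideal.Quotient.mk (𝔭 ^ 2) x.1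
      rw [map_sub, Ideal.Quotient.eq_zero_iff_mem.mpr hw, sub_zero]
  refine Module.length_le_of_injective (e.codRestrict _ hmem) fun x y h => ?_
  exact Subtype.ext (𝔭.cotangentToQuotientSquare_injective (congrArg Subtype.val h))

end Cotangent

section Main

variable {𝒪 : Type} [CommRing 𝒪] [IsDomain 𝒪] [IsDiscreteValuationRing 𝒪]
  [IsAdicComplete (maximalIdeal 𝒪) 𝒪] {ρbar : ResidualGaloisRep (ResidueField 𝒪)}
  {p : ℕ} [Fact p.Prime] {k : Kind} {S S₀ Smin : Finset ℕ}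

/-- **Growth of the cotangent space.** -/
theorem length_cotangent_le (hp2 : p ≠ 2)
    (DS : GaloisRep.DeformationRingData 𝒪 ρbar (cond k 𝒪 p S Smin))
    (D₀ : GaloisRep.DeformationRingData 𝒪 ρbar (cond k 𝒪 p S₀ Smin)) (hS : S₀ ⊆ S)
    (hQ : ∀ q ∈ S \ S₀, q.Prime ∧ q ≠ p) (r : DS.R →ₐ[𝒪] D₀.R)
    (hr : IsLocalHom (r : DS.R →+* D₀.R))
    (he : (DS.ρ.baseChangeAlong (r : DS.R →+* D₀.R) hr).IsEquiv D₀.ρ)
    (π₀ : D₀.R →ₐ[𝒪] 𝒪) (t : ℕ → 𝒪)
    (hfrob : ∀ q ∈ S \ S₀, ∃ P : ValuationSubring Qbar, P.LiesOverPrime q ∧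
      ∃ φ : GalQ, P.IsFrobeniusAt φ q ∧
        π₀ (r (LinearMap.trace DS.R DS.ρ.V (DS.ρ.ρ φ))) = t q) :
    Function.Surjective r ∧
      Module.length 𝒪 (RingHom.ker (π₀.comp r)).Cotangent ≤
        Module.length 𝒪 (RingHom.ker π₀).Cotangent +
          ∑ q ∈ S \ S₀, Ring.ord 𝒪 (((q : 𝒪) - 1) * (((q : 𝒪) + 1) ^ 2 - t q ^ 2)) := by
  obtain ⟨b⟩ := finBasisV DS.ρ
  obtain ⟨r', hsurj, hker, hr', he'⟩ := exists_restrict hp2 DS D₀ hS (fun q hq => (hQ q hq).1) b
  obtain rfl : r = r' := by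
    obtain ⟨f, -, huniq⟩ := DS.universal D₀.R D₀.residue_surjective D₀.ρ
      ((cond_iff_of_subset hS).mp D₀.isOfType).1 D₀.residual_isEquiv
    rw [huniq r ⟨hr, he⟩, huniq r' ⟨hr', he'⟩]
  refine ⟨hsurj, (length_cotangent_comp_le r hsurj π₀ hker).trans (add_le_add le_rfl ?_)⟩
  exact length_inertia_image_le Fact.out DS.ρ (cond_detIsCyclotomic DS.isOfType) b hQ _
    (fun x hx => by
      rw [← hker, RingHom.mem_ker] at hx
      rw [RingHom.mem_ker, AlgHom.comp_apply, show r x = 0 from hx, map_zero]) t hfrob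

end Main

end Fermat.Agent.R59.CotGrowth
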