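import Fermat.Agent.NumCrit.LengthDet
import Mathlib.LinearAlgebra.Matrix.Adjugate
import Mathlib.RingTheory.Artinian.Module

/-!
# Linear algebra for the growth of the cotangent space at a raised prime

* `conjMat F` is the matrix of `Y ↦ F * Y * adjugate F` on trace zero `2 × 2` matrices.
* `exists_relations`: if `G * X = X ^ q * G` with `X ≡ 1`, `G ≡ F` modulo a square zero ideal and
  `det X = 1`, the entries of `X - 1` satisfy the relations `conjMat F - q ^ 2`, of determinant
  `q ^ 3 * (1 - q) * ((q + 1) ^ 2 - t ^ 2)`.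
* length bounds for modules given by such relations and for separated filtrations.
-/

set_option autoImplicit false

noncomputable section

namespace Fermat.Agent.R59.CotGrowth

open Matrix

section Conj

variable {S : Type*} [CommRing S]

/-- The matrix of `Y ↦ F * Y * adjugate F` in the coordinates `(Y 0 0, Y 0 1, Y 1 0)`. -/
def conjMat (F : Matrix (Fin 2) (Fin 2) S) : Matrix (Fin 3) (Fin 3) S :=
  !![F 0 0 * F 1 1 + F 0 1 * F 1 0, -(F 0 0 * F 1 0), F 0 1 * F 1 1;
    -(2 * (F 0 0 * F 0 1)), F 0 0 ^ 2, -(F 0 1 ^ 2);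
    2 * (F 1 0 * F 1 1), -(F 1 0 ^ 2), F 1 1 ^ 2]

theorem det_conjMat_sub (F : Matrix (Fin 2) (Fin 2) S) :
    (conjMat F - F.det ^ 2 • (1 : Matrix (Fin 3) (Fin 3) S)).det =
      F.det ^ 3 * (1 - F.det) * ((F.det + 1) ^ 2 - F.trace ^ 2) := by
  simp only [conjMat, det_fin_three, det_fin_two, trace_fin_two, Matrix.sub_apply, Matrix.smul_apply,
    smul_eq_mul]
  simp
  ring

end Conj

section Relations

variable {O A : Type*} [CommRing O] [CommRing A] [Algebra O A] {I : Ideal A}

theorem mul_eq_zero_of_sq_bot (hI : I * I = ⊥) {x y : A} (hx : x ∈ I) (hy : y ∈ I) :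
    x * y = 0 := by
  have h := Ideal.mul_mem_mul hx hy
  rwa [hI, Ideal.mem_bot] at h

theorem matrix_mul_eq_zero {n : Type*} [Fintype n] (hI : I * I = ⊥) {U V : Matrix n n A}
    (hU : ∀ i j, U i j ∈ I) (hV : ∀ i j, V i j ∈ I) : U * V = 0 :=
  Matrix.ext fun i j => Finset.sum_eq_zero fun k _ => mul_eq_zero_of_sq_bot hI (hU i k) (hV k j)

theorem one_add_pow_eq {n : Type*} [Fintype n] [DecidableEq n] {Y : Matrix n n A}
    (hY : Y * Y = 0) (m : ℕ) : (1 + Y) ^ m = 1 + (m : A) • Y := by
  induction m with
  | zero => simp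
  | succ m ih =>
    rw [pow_succ, ih, Nat.cast_succ, add_smul, one_smul, mul_add, mul_one, add_mul, one_mul,
      smul_mul_assoc, hY, smul_zero, add_zero, add_assoc]

/-- The relations between the entries of the matrix of a tame generator. -/
theorem exists_relations (hI : I * I = ⊥) (q : ℕ) {X G : Matrix (Fin 2) (Fin 2) A}
    {F : Matrix (Fin 2) (Fin 2) O} (hX : ∀ i j, (X - 1) i j ∈ I)
    (hG : ∀ i j, (G - F.map (algebraMap O A)) i j ∈ I) (hdet : X.det = 1)
    (hF : F.det = (q : O)) (hrel : G * X = X ^ q * G) :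
    ∃ y : Fin 3 → A, (∀ i, y i ∈ I) ∧
      (∀ i, ∑ j, (conjMat F - (q : O) ^ 2 • (1 : Matrix (Fin 3) (Fin 3) O)) i j • y j = 0) ∧
      (X - 1) 0 0 = y 0 ∧ (X - 1) 0 1 = y 1 ∧ (X - 1) 1 0 = y 2 ∧ (X - 1) 1 1 = -y 0 := by
  set FA := F.map (algebraMap O A) with hFA
  set Y := X - 1 with hYdef
  have hXY : X = 1 + Y := (add_sub_cancel _ _).symm
  have hYY : Y * Y = 0 := matrix_mul_eq_zero hI hX hX
  have htr : Y 1 1 = -Y 0 0 := by
    rw [hXY, det_fin_two] at hdet
    simp only [Matrix.add_apply, one_apply_eq, one_apply_ne (Fin.zero_ne_one),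
      one_apply_ne (Fin.zero_ne_one.symm), zero_add] at hdet
    linear_combination hdet - mul_eq_zero_of_sq_bot hI (hX 0 0) (hX 1 1) +
      mul_eq_zero_of_sq_bot hI (hX 0 1) (hX 1 0)
  have hGY : G * Y = (q : A) • (Y * G) := by
    rw [hXY, one_add_pow_eq hYY, mul_add, add_mul, mul_one, one_mul, smul_mul_assoc] at hrel
    exact add_left_cancel hrel
  have hFY : FA * Y = (q : A) • (Y * FA) := by
    have e1 : (G - FA) * Y = 0 := matrix_mul_eq_zero hI hG hX
    have e2 : Y * (G - FA) = 0 := matrix_mul_eq_zero hI hX hG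
    rw [sub_mul, sub_eq_zero] at e1
    rw [mul_sub, sub_eq_zero] at e2
    rw [← e1, ← e2, hGY]
  have hFAdet : FA.det = (q : A) := by
    rw [hFA, ← RingHom.mapMatrix_apply, ← RingHom.map_det, hF, map_natCast]
  have hconj : FA * Y * FA.adjugate = ((q : A) ^ 2) • Y := by
    rw [hFY, smul_mul_assoc, mul_assoc, mul_adjugate, hFAdet, mul_smul_comm, mul_one, smul_smul,
      sq]
  have e00 : (FA * Y * FA.adjugate) 0 0 = (q : A) ^ 2 * Y 0 0 := by rw [hconj]; rfl
  have e01 : (FA * Y * FA.adjugate) 0 1 = (q : A) ^ 2 * Y 0 1 := by rw [hconj]; rfl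
  have e10 : (FA * Y * FA.adjugate) 1 0 = (q : A) ^ 2 * Y 1 0 := by rw [hconj]; rfl
  simp only [adjugate_fin_two, Matrix.mul_apply, Fin.sum_univ_two, hFA, Matrix.map_apply,
    Matrix.of_apply, Matrix.cons_val', Matrix.cons_val_zero, Matrix.cons_val_one,
    Matrix.cons_val_fin_one, htr] at e00 e01 e10
  refine ⟨![Y 0 0, Y 0 1, Y 1 0], ?_, ?_, rfl, rfl, rfl, htr⟩
  · intro i
    fin_cases i <;> exact hX _ _
  · intro i
    simp only [Matrix.sub_apply, Matrix.smul_apply, sub_smul, Finset.sum_sub_distrib]
    simp only [Matrix.one_apply, smul_eq_mul, mul_ite, mul_one, mul_zero, ite_smul, zero_smul,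
      Finset.sum_ite_eq, Finset.mem_univ, if_true]
    fin_cases i <;>
      simp [conjMat, Fin.sum_univ_three, Algebra.smul_def, map_ofNat]
    · linear_combination e00
    · linear_combination e01
    · linear_combination e10

end Relations

section Length

variable {O : Type*} [CommRing O] [IsDomain O] [IsDiscreteValuationRing O]
  {N : Type*} [AddCommGroup N] [Module O N]

theorem length_self_eq_top : Module.length O O = ⊤ := by
  by_contra h
  have := (isFiniteLength_iff_isNoetherian_isArtinian.mp (Module.length_ne_top_iff.mp h)).2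
  exact IsDiscreteValuationRing.not_isField O (IsArtinianRing.isField_of_isDomain O)

theorem ord_zero_eq_top : Ring.ord O (0 : O) = ⊤ := by rw [Ring.ord_zero, length_self_eq_top]

/-- A module generated by elements satisfying square relations has length at most the valuation
of their determinant. -/
theorem length_span_le_ord_det {n : Type} [Fintype n] [DecidableEq n] (Mt : Matrix n n O)
    (y : n → N) (h : ∀ i, ∑ j, Mt i j • y j = 0) :
    Module.length O (Submodule.span O (Set.range y)) ≤ Ring.ord O Mt.det := by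
  by_cases hdet : Mt.det = 0
  · rw [hdet, ord_zero_eq_top]
    exact le_top
  rw [← NumCrit.length_quotient_rows_eq_ord_det Mt hdet]
  let f : (n → O) →ₗ[O] Submodule.span O (Set.range y) :=
    (Fintype.linearCombination O y).codRestrict _ fun v =>
      Submodule.sum_mem _ fun j _ => Submodule.smul_mem _ _ (Submodule.subset_span ⟨j, rfl⟩)
  have hle : Submodule.span O (Set.range fun i => Mt i) ≤ LinearMap.ker f := by
    rw [Submodule.span_le]
    rintro _ ⟨i, rfl⟩
    exact Subtype.ext (by simpa [f, Fintype.linearCombination_apply] using h i)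
  refine Module.length_le_of_surjective (Submodule.liftQ _ f hle) ?_
  rintro ⟨z, hz⟩
  obtain ⟨c, hc⟩ := (Submodule.mem_span_range_iff_exists_fun O).mp hz
  exact ⟨Submodule.Quotient.mk c, Subtype.ext (by
    simpa [f, Fintype.linearCombination_apply] using hc)⟩

omit [IsDomain O] [IsDiscreteValuationRing O]

theorem length_sup_le (P Q : Submodule O N) :
    Module.length O ↥(P ⊔ Q) ≤ Module.length O P + Module.length O Q := by
  rw [← Module.length_prod]
  refine Module.length_le_of_surjective ((P.subtype.coprod Q.subtype).codRestrict (P ⊔ Q)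
    fun x => Submodule.add_mem_sup x.1.2 x.2.2) ?_
  rintro ⟨z, hz⟩
  obtain ⟨a, ha, b, hb, rfl⟩ := Submodule.mem_sup.mp hz
  exact ⟨(⟨a, ha⟩, ⟨b, hb⟩), rfl⟩

theorem length_finset_sup_le {ι : Type*} (s : Finset ι) (P : ι → Submodule O N) :
    Module.length O ↥(s.sup P) ≤ ∑ i ∈ s, Module.length O (P i) := by
  classical
  induction s using Finset.induction with
  | empty =>
    rw [Finset.sum_empty]
    have : Subsingleton ↥((∅ : Finset ι).sup P) := by
      rw [show (∅ : Finset ι).sup P = ⊥ from Finset.sup_empty]; infer_instance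
    exact Module.length_eq_zero.le
  | insert a s ha ih =>
    rw [Finset.sup_insert, Finset.sum_insert ha]
    exact (length_sup_le _ _).trans (by gcongr)

/-- A bound on the lengths of the quotients by a separated filtration bounds the length. -/
theorem length_le_of_forall_quotient (C : ℕ → Submodule O N) (hanti : Antitone C)
    (hinf : ⨅ n, C n = ⊥) {B : ℕ∞} (h : ∀ n, Module.length O (N ⧸ C n) ≤ B) :
    Module.length O N ≤ B := by
  obtain rfl | hB := eq_or_ne B ⊤
  · exact le_top
  -- a quotient of maximal length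
  obtain ⟨n, hn⟩ : ∃ n, ∀ m, Module.length O (N ⧸ C m) ≤ Module.length O (N ⧸ C n) := by
    classical
    have hne : ∀ m, Module.length O (N ⧸ C m) ≠ ⊤ := fun m => ne_top_of_le_ne_top hB (h m)
    by_contra hcon
    push Not at hcon
    have key : ∀ k : ℕ, ∃ m, (k : ℕ∞) ≤ Module.length O (N ⧸ C m) := by
      intro k
      induction k with
      | zero => exact ⟨0, by simp⟩
      | succ k ih =>
        obtain ⟨m, hm⟩ := ih
        obtain ⟨m', hm'⟩ := hcon m
        exact ⟨m', by rw [Nat.cast_succ]; exact Order.add_one_le_of_lt (hm.trans_lt hm')⟩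
    obtain ⟨m, hm⟩ := key (B.toNat + 1)
    have := hm.trans (h m)
    obtain ⟨b, rfl⟩ : ∃ b : ℕ, B = b := ⟨B.toNat, (ENat.natCast_toNat hB).symm⟩
    rw [ENat.toNat_natCast] at this
    exact absurd (Nat.cast_le.mp this) (by omega)
  have hsame : ∀ m, n ≤ m → C n ≤ C m := by
    intro m hnm
    let f : (N ⧸ C m) →ₗ[O] (N ⧸ C n) := Submodule.factor (hanti hnm)
    have hf : Function.Surjective f := Submodule.factor_surjective _
    have hadd := Module.length_eq_add_of_exact (LinearMap.ker f).subtype f
      (Submodule.subtype_injective _) hf (LinearMap.exact_subtype_ker_map f)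
    have hker : Module.length O (LinearMap.ker f) = 0 := by
      have h1 : Module.length O (LinearMap.ker f) + Module.length O (N ⧸ C n) ≤
          0 + Module.length O (N ⧸ C n) := by
        rw [zero_add, ← hadd]
        exact hn m
      exact nonpos_iff_eq_zero.mp
        ((ENat.add_le_add_iff_right (ne_top_of_le_ne_top hB (h n))).mp h1)
    have : Subsingleton (LinearMap.ker f) := Module.length_eq_zero_iff.mp hker
    intro x hx
    have hxk : (Submodule.Quotient.mk x : N ⧸ C m) ∈ LinearMap.ker f := by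
      simpa [f] using (Submodule.Quotient.mk_eq_zero _).mpr hx
    exact (Submodule.Quotient.mk_eq_zero _).mp
      (congrArg Subtype.val (Subsingleton.elim (⟨_, hxk⟩ : LinearMap.ker f) 0))
  have hCn : C n = ⊥ := le_bot_iff.mp (hinf ▸ le_iInf fun m => by
    rcases le_total n m with hnm | hnm
    · exact hsame m hnm
    · exact hanti hnm)
  refine le_trans ?_ (h n)
  exact Module.length_le_of_injective (C n).mkQ (LinearMap.ker_eq_bot.mp (by
    rw [Submodule.ker_mkQ, hCn]))

end Length

end Fermat.Agent.R59.CotGrowth
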